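/-
NODAL, layer LQ (architect helper155): the translator from helper39's hub `BAD.LevelQ.LQ`
(one-field language of `S18/Defs.lean`: `chart`, `IsUnif`, `valuation _ < 1`) to `Nodal.Base`
(language of `KLB`: `A := ↥A₀`, `P := K₀⟮x⟯`, `x := AdjoinSimple.gen K₀ x`,
`IsIntegral (Algebra.adjoin A {x}) y`, `nonunits`).

All the `Algebra` / `IsScalarTower` instances `A₀ → K₀ → K₀⟮x⟯ → F` are the ones found by instance
synthesis (`Algebra.ofSubsemiring`, `IntermediateField.algebra'`, ...): never declare them by hand.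
-/
import Fermat.Agent.Nodal.Defs
import Fermat.Agent.KLB.App.BridgeGauss
import Fermat.Agent.S18.Descent.Horizontal
import Fermat.Agent.S18.Chart.DedUnif
import Fermat.Agent.BAD.LevelQ.Hub.Basic
import Fermat.Agent.BAD.LevelQ.Hub.Nor
import Fermat.Agent.BAD.LevelQ.Hub.Rad
import Fermat.Agent.BAD.LevelQ.Hub.Vert

set_option autoImplicit false

noncomputable section

namespace Fermat.Agent.Nodal

open IntermediateField Polynomial Fermat.Agent.S18 Fermat.Agent.BAD.LevelQ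

section Adapt

variable {K₀ F : Type*} [Field K₀] [Field F] [Algebra K₀ F] (A₀ : ValuationSubring K₀)

theorem mem_chart_iff_isIntegral_adjoin_mem {x : F} (t : K₀⟮x⟯) (z : F) :
    z ∈ polyRing A₀.toSubring (t : F) ↔ ∃ b ∈ Algebra.adjoin A₀ {t}, ((b : K₀⟮x⟯) : F) = z := by
  constructor
  · intro hz
    obtain ⟨p, hp, rfl⟩ := (mem_polyRing_iff _ _ _).1 hz
    refine ⟨aeval t p, ?_, ?_⟩
    · rw [aeval_eq_sum_range]
      refine Subalgebra.sum_mem _ fun i _ => ?_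
      have h1 : p.coeff i • t ^ i = (⟨p.coeff i, hp i⟩ : A₀) • t ^ i := rfl
      rw [h1]
      exact Subalgebra.smul_mem _ (Subalgebra.pow_mem _ (Algebra.self_mem_adjoin_singleton _ _) i) _
    · exact (Polynomial.aeval_algebraMap_apply F t p).symm
  · rintro ⟨b, hb, rfl⟩
    induction hb using Algebra.adjoin_induction with
    | mem y hy =>
      rw [Set.mem_singleton_iff] at hy
      subst hy
      exact (mem_polyRing_iff _ _ _).2 ⟨X, fun i => by
        rw [coeff_X]; split_ifs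
        · exact A₀.one_mem
        · exact A₀.zero_mem, by simp⟩
    | algebraMap a =>
      exact (mem_polyRing_iff _ _ _).2 ⟨C (a : K₀), fun i => by
        rw [coeff_C]; split_ifs
        · exact a.2
        · exact A₀.zero_mem, by simp; rfl⟩
    | add y z _ _ hy hz => exact Subring.add_mem _ hy hz
    | mul y z _ _ hy hz => exact Subring.mul_mem _ hy hz

/-- AD1: the two languages for the charts. -/
theorem mem_chart_iff_isIntegral_adjoin {x : F} (t : K₀⟮x⟯) (y : F) :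
    y ∈ chart A₀.toSubring (t : F) ↔ IsIntegral (Algebra.adjoin A₀ {t}) y := by
  rw [mem_chart_iff_isIntegral]
  constructor
  · refine isIntegral_of_forall_exists_algebraMap fun r => ?_
    obtain ⟨b, hb, hbr⟩ := (mem_chart_iff_isIntegral_adjoin_mem A₀ t _).1 r.2
    exact ⟨⟨b, hb⟩, hbr⟩
  · refine isIntegral_of_forall_exists_algebraMap fun r => ?_
    exact ⟨⟨_, (mem_chart_iff_isIntegral_adjoin_mem A₀ t _).2 ⟨r.1, r.2, rfl⟩⟩, rfl⟩

theorem mem_chart_iff_isIntegral_gen (x y : F) :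
    y ∈ chart A₀.toSubring x ↔ IsIntegral (Algebra.adjoin A₀ {AdjoinSimple.gen K₀ x}) y :=
  mem_chart_iff_isIntegral_adjoin A₀ (AdjoinSimple.gen K₀ x) y

theorem mem_chart_inv_iff_isIntegral_gen (x y : F) :
    y ∈ chart A₀.toSubring x⁻¹ ↔ IsIntegral (Algebra.adjoin A₀ {(AdjoinSimple.gen K₀ x)⁻¹}) y :=
  mem_chart_iff_isIntegral_adjoin A₀ (AdjoinSimple.gen K₀ x)⁻¹ y

/-- The finite set of the vertical valuation rings. -/
def vertSet (V : Fin 2 → ValuationSubring F) : Finset (ValuationSubring F) := by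
  classical exact Finset.univ.image V

theorem mem_vertSet {V : Fin 2 → ValuationSubring F} {W : ValuationSubring F} :
    W ∈ vertSet V ↔ ∃ c, W = V c := by
  classical
  unfold vertSet
  simp only [Finset.mem_image, Finset.mem_univ, true_and]
  exact ⟨fun ⟨c, h⟩ => ⟨c, h.symm⟩, fun ⟨c, h⟩ => ⟨c, h.symm⟩⟩

variable {A₀} {ϖ₀ : K₀}

/-- AD2. -/
theorem irreducible_of_isUnif (h₀ : IsUnif A₀ ϖ₀) : Irreducible (⟨ϖ₀, h₀.mem⟩ : A₀) :=
  h₀.irreducible

variable (A₀) in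
/-- AD3. -/
theorem isCoord_gen [CharZero K₀] [IsDiscreteValuationRing A₀] {x : F}
    (hx : Transcendental K₀ x) : KLB.IsCoord A₀ (AdjoinSimple.gen K₀ x) :=
  KLB.isCoord_of_goodRed K₀ (S18.Descent.transcendental_gen hx) (S18.Descent.adjoin_gen_eq_top x)

/-- (helper for AD4, AD5) divisibility by the uniformiser in `A₀`. -/
theorem isLocSub_of_isMCoord_dvd_iff (h₀ : IsUnif A₀ ϖ₀) (a : A₀) :
    (⟨ϖ₀, h₀.mem⟩ : A₀) ∣ a ↔ A₀.valuation (a : K₀) < 1 := by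
  constructor
  · rintro ⟨b, rfl⟩
    have h1 : (((⟨ϖ₀, h₀.mem⟩ : A₀) * b : A₀) : K₀) = ϖ₀ * (b : K₀) := rfl
    rw [h1, map_mul]
    exact mul_lt_one_of_nonneg_of_lt_one_left zero_le (CoordAux.valuation_unif_lt_one h₀)
      ((A₀.valuation_le_one_iff _).mpr b.2)
  · intro h
    refine ⟨⟨(a : K₀) / ϖ₀, CoordAux.div_mem_of_valuation_lt_one h₀ h⟩, Subtype.ext ?_⟩
    show (a : K₀) = ϖ₀ * ((a : K₀) / ϖ₀)
    rw [mul_div_cancel₀ _ h₀.ne_zero]

/-- (helper for AD4, AD5) primitive polynomials. -/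
theorem isLocSub_of_isMCoord_not_C_dvd_iff (h₀ : IsUnif A₀ ϖ₀) (D : A₀[X]) :
    ¬ C (⟨ϖ₀, h₀.mem⟩ : A₀) ∣ D ↔ ∃ i, A₀.valuation ((D.coeff i : A₀) : K₀) = 1 := by
  rw [C_dvd_iff_dvd_coeff, not_forall]
  refine exists_congr fun i => ?_
  rw [isLocSub_of_isMCoord_dvd_iff h₀, not_lt]
  exact ⟨fun h => le_antisymm ((A₀.valuation_le_one_iff _).mpr (D.coeff i).2) h, fun h => h.ge⟩

/-- (helper for AD4, AD5) evaluation at the generator, in `F`. -/
theorem isLocSub_of_isMCoord_aeval_gen (x : F) (D : A₀[X]) :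
    algebraMap K₀⟮x⟯ F (aeval (AdjoinSimple.gen K₀ x) D) =
      aeval x (D.map (algebraMap A₀ K₀)) := by
  rw [aeval_map_algebraMap, ← aeval_algebraMap_apply, AdjoinSimple.algebraMap_gen]

/-- (helper for AD4, AD5) polynomials with coefficients in `A₀`. -/
theorem isLocSub_of_isMCoord_exists_lift (p : K₀[X]) (hp : ∀ i, p.coeff i ∈ A₀) :
    ∃ P : A₀[X], P.map (algebraMap A₀ K₀) = p := by
  have h : p ∈ Polynomial.lifts (algebraMap A₀ K₀) := by
    rw [Polynomial.lifts_iff_coeff_lifts]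
    exact fun n => ⟨⟨p.coeff n, hp n⟩, rfl⟩
  exact h

theorem isLocSub_of_isMCoord_coeff_map (D : A₀[X]) (i : ℕ) :
    (D.map (algebraMap A₀ K₀)).coeff i = ((D.coeff i : A₀) : K₀) := by
  rw [coeff_map]
  rfl

/-- AD4: a valuation ring for which `x` has a transcendental residue induces the Gauss ring. -/
theorem isLocSub_of_isMCoord [CharZero K₀] [IsDiscreteValuationRing A₀] (h₀ : IsUnif A₀ ϖ₀)
    {x : F} (hx : Transcendental K₀ x) (W : ValuationSubring F) (hW : IsMCoord A₀ W x)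
    (hc : ∀ a ∈ A₀, algebraMap K₀ F a ∈ W) (hϖ : W.valuation (algebraMap K₀ F ϖ₀) < 1) :
    KLB.IsLocSub (KLB.ndvd ((isCoord_gen A₀ hx).prime (irreducible_of_isUnif h₀)))
      (W.toSubring.comap (algebraMap K₀⟮x⟯ F)) := by
  intro a
  rw [(isCoord_gen A₀ hx).exists_ndvd_iff (irreducible_of_isUnif h₀)]
  constructor
  · intro ha
    have ha' : algebraMap K₀⟮x⟯ F a ∈ W := ha
    obtain ⟨p, d, hp, hd, hd1, h⟩ := hW.exists_frac h₀ hc hϖ a.2 ha'
    obtain ⟨P, rfl⟩ := isLocSub_of_isMCoord_exists_lift p hp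
    obtain ⟨D, rfl⟩ := isLocSub_of_isMCoord_exists_lift d hd
    refine ⟨D, P, (isLocSub_of_isMCoord_not_C_dvd_iff h₀ D).2 ?_, ?_⟩
    · obtain ⟨i, hi⟩ := hd1
      exact ⟨i, by rwa [isLocSub_of_isMCoord_coeff_map] at hi⟩
    · apply (algebraMap K₀⟮x⟯ F).injective
      rw [map_mul, isLocSub_of_isMCoord_aeval_gen, isLocSub_of_isMCoord_aeval_gen, mul_comm]
      exact h
  · rintro ⟨D, S, hD, h⟩
    show algebraMap K₀⟮x⟯ F a ∈ W
    have h1 := congrArg (algebraMap K₀⟮x⟯ F) h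
    rw [map_mul, isLocSub_of_isMCoord_aeval_gen, isLocSub_of_isMCoord_aeval_gen] at h1
    have hD1 : W.valuation (aeval x (D.map (algebraMap A₀ K₀))) = 1 := by
      refine hW.valuation_aeval_eq_one hc (fun i => ?_) ?_
      · rw [isLocSub_of_isMCoord_coeff_map]
        exact (D.coeff i).2
      · obtain ⟨i, hi⟩ := (isLocSub_of_isMCoord_not_C_dvd_iff h₀ D).1 hD
        exact ⟨i, by rwa [isLocSub_of_isMCoord_coeff_map]⟩
    have hS : aeval x (S.map (algebraMap A₀ K₀)) ∈ W := by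
      refine CoordAux.aeval_mem hW.mem hc fun i => ?_
      rw [isLocSub_of_isMCoord_coeff_map]
      exact (S.coeff i).2
    rw [← W.valuation_le_one_iff] at hS ⊢
    rwa [← h1, map_mul, hD1, one_mul] at hS

/-- AD5: the converse. -/
theorem isMCoord_of_isLocSub [CharZero K₀] [IsDiscreteValuationRing A₀] (h₀ : IsUnif A₀ ϖ₀)
    {x : F} (hx : Transcendental K₀ x) (W : ValuationSubring F)
    (h : KLB.IsLocSub (KLB.ndvd ((isCoord_gen A₀ hx).prime (irreducible_of_isUnif h₀)))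
      (W.toSubring.comap (algebraMap K₀⟮x⟯ F))) :
    IsMCoord A₀ W x ∧ (∀ a ∈ A₀, algebraMap K₀ F a ∈ W) ∧
      W.valuation (algebraMap K₀ F ϖ₀) < 1 := by
  have hco := isCoord_gen A₀ hx
  have hπ := irreducible_of_isUnif h₀
  have key : ∀ a : K₀⟮x⟯, algebraMap K₀⟮x⟯ F a ∈ W ↔
      KLB.GaussFrac (⟨ϖ₀, h₀.mem⟩ : A₀) (AdjoinSimple.gen K₀ x) a := fun a =>
    (h a).trans (hco.exists_ndvd_iff hπ a)
  -- polynomials with integral coefficients are integral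
  have hpoly : ∀ P : A₀[X], aeval x (P.map (algebraMap A₀ K₀)) ∈ W := by
    intro P
    rw [← isLocSub_of_isMCoord_aeval_gen]
    refine (key _).2 ⟨1, P, fun h1 => (prime_C_iff.mpr hπ.prime).not_dvd_one h1, ?_⟩
    rw [map_one, one_mul]
  have hxW : x ∈ W := by
    have := hpoly X
    rwa [Polynomial.map_X, aeval_X] at this
  have hc : ∀ a ∈ A₀, algebraMap K₀ F a ∈ W := by
    intro a ha
    have := hpoly (C ⟨a, ha⟩)
    rwa [Polynomial.map_C, aeval_C] at this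
  have hinv : (algebraMap K₀ F ϖ₀)⁻¹ ∉ W := by
    intro hmem
    have h1 : algebraMap K₀⟮x⟯ F (algebraMap K₀ K₀⟮x⟯ ϖ₀)⁻¹ ∈ W := by
      rw [map_inv₀, ← IsScalarTower.algebraMap_apply]
      exact hmem
    obtain ⟨D, S, hD, hDS⟩ := (key _).1 h1
    apply hD
    refine ⟨S, KLB.aeval_injective_of_transcendental hco.trans ?_⟩
    have hϖ0 : algebraMap K₀ K₀⟮x⟯ ϖ₀ ≠ 0 := (_root_.map_ne_zero _).mpr h₀.ne_zero
    have h2 : aeval (AdjoinSimple.gen K₀ x) (C (⟨ϖ₀, h₀.mem⟩ : A₀)) = algebraMap K₀ K₀⟮x⟯ ϖ₀ := by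
      rw [aeval_C]
      rfl
    rw [map_mul, h2, ← hDS]
    field_simp
  have hϖ : W.valuation (algebraMap K₀ F ϖ₀) < 1 := by
    refine lt_of_le_of_ne ((W.valuation_le_one_iff _).mpr (hc _ h₀.mem)) fun h1 => hinv ?_
    rw [← W.valuation_le_one_iff, map_inv₀, h1, inv_one]
  refine ⟨⟨hxW, fun p hp hlt i => ?_⟩, hc, hϖ⟩
  by_contra hi
  obtain ⟨P, rfl⟩ := isLocSub_of_isMCoord_exists_lift p hp
  have hP : ¬ C (⟨ϖ₀, h₀.mem⟩ : A₀) ∣ P := by
    rw [isLocSub_of_isMCoord_not_C_dvd_iff h₀]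
    refine ⟨i, le_antisymm ((A₀.valuation_le_one_iff _).mpr (P.coeff i).2) ?_⟩
    rw [isLocSub_of_isMCoord_coeff_map] at hi
    exact not_lt.1 hi
  have hP0 : aeval (AdjoinSimple.gen K₀ x) P ≠ 0 := by
    intro h0
    have : P = 0 := KLB.aeval_injective_of_transcendental hco.trans (by rw [h0, map_zero])
    exact hP (this ▸ dvd_zero _)
  have h1 : algebraMap K₀⟮x⟯ F (aeval (AdjoinSimple.gen K₀ x) P)⁻¹ ∈ W :=
    (key _).2 ⟨P, 1, hP, by rw [mul_inv_cancel₀ hP0, map_one]⟩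
  rw [map_inv₀, isLocSub_of_isMCoord_aeval_gen, ← W.valuation_le_one_iff, map_inv₀] at h1
  have h0 : W.valuation (aeval x (P.map (algebraMap A₀ K₀))) ≠ 0 := by
    rw [← isLocSub_of_isMCoord_aeval_gen]
    exact (_root_.map_ne_zero _).mpr ((_root_.map_ne_zero _).mpr hP0)
  rw [inv_le_one₀ (zero_lt_iff.2 h0)] at h1
  exact absurd hlt (not_lt.2 h1)

end Adapt

section Hub

variable {K₀ F' F : Type*} [Field K₀] [Field F'] [Field F] [Algebra K₀ F'] [Algebra K₀ F]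
variable {A₀ : ValuationSubring K₀} {ϖ₀ : K₀} {q : ℕ} {al be : F' →ₐ[K₀] F} {w : F ≃ₐ[K₀] F}
  {γ : F' →+* F'} {Ow' : ValuationSubring F'} {V : Fin 2 → ValuationSubring F} {x' : F'}

/-- The Gauss ring of `K₀(x)`. -/
abbrev gaussP (V : Fin 2 → ValuationSubring F) (x : F) : Subring K₀⟮x⟯ :=
  (V 0).toSubring.comap (algebraMap K₀⟮x⟯ F)

/-- AD6: `vert_iff`. -/
theorem LQ.vert_iff [CharZero K₀] [IsDiscreteValuationRing A₀]
    (H : LQ A₀ ϖ₀ q al be w γ Ow' V x') (W : ValuationSubring F) :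
    W ∈ vertSet V ↔
      W.toSubring.comap (algebraMap K₀⟮xx al be x'⟯ F) = gaussP V (xx al be x') := by
  have hx : Transcendental K₀ (xx al be x') := (H.isMCoord 0).transcendental
  have h₀ := H.vert'.unif₀
  have hloc : ∀ c, KLB.IsLocSub (KLB.ndvd ((isCoord_gen A₀ hx).prime (irreducible_of_isUnif h₀)))
      ((V c).toSubring.comap (algebraMap K₀⟮xx al be x'⟯ F)) := fun c =>
    isLocSub_of_isMCoord h₀ hx (V c) (H.isMCoord c) (H.isMVert.const_mem c) (H.isMVert.lt_one c)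
  constructor
  · intro hW
    obtain ⟨c, rfl⟩ := mem_vertSet.1 hW
    exact Subring.ext fun a => ((hloc c) a).trans ((hloc 0) a).symm
  · intro hW
    have h1 : KLB.IsLocSub (KLB.ndvd ((isCoord_gen A₀ hx).prime (irreducible_of_isUnif h₀)))
        (W.toSubring.comap (algebraMap K₀⟮xx al be x'⟯ F)) := by
      rw [hW]
      exact hloc 0
    obtain ⟨h2, h3, h4⟩ := isMCoord_of_isLocSub h₀ hx W h1
    exact mem_vertSet.2 (H.eq_of_vertical W h2 h3 h4)

/-- The combinatorics common to `LQ.base_rad₁` and `LQ.base_rad₂` (`Int` = membership of the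
chart). -/
theorem LQ.base_rad₁_aux (V : Fin 2 → ValuationSubring F) (Int : F → Prop)
    (hrad : ∀ c c' : Fin 2, c ≠ c' → ∀ f, Int f → ∀ m : ℕ,
      (∃ g, Int g ∧ (V c').valuation g < 1 ∧ (V c).valuation (f ^ m - g) < 1) →
      ∃ g, Int g ∧ (V c').valuation g < 1 ∧ (V c).valuation (f - g) < 1) :
    ∀ T : Set (ValuationSubring F), T ⊆ ↑(vertSet V) → ∀ W ∈ vertSet V, W ∉ T → ∀ (f : F) (m : ℕ),
    Int f → (∃ g, (Int g ∧ ∀ W' ∈ T, g ∈ W'.nonunits) ∧ f ^ m - g ∈ W.nonunits) →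
    ∃ g, (Int g ∧ ∀ W' ∈ T, g ∈ W'.nonunits) ∧ f - g ∈ W.nonunits := by
  intro T hT W hW hWT f m hf ⟨g, ⟨hg, hgT⟩, hfg⟩
  obtain ⟨c, rfl⟩ := mem_vertSet.1 hW
  by_cases hne : ∃ W', W' ∈ T
  · obtain ⟨W', hW'⟩ := hne
    obtain ⟨c', rfl⟩ := mem_vertSet.1 (hT hW')
    have hcc' : c ≠ c' := by
      rintro rfl
      exact hWT hW'
    have hall : ∀ W'' ∈ T, W'' = V c' := by
      intro W'' hW''
      obtain ⟨d, rfl⟩ := mem_vertSet.1 (hT hW'')
      have hd : d ≠ c := by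
        rintro rfl
        exact hWT hW''
      have : ∀ c c' d : Fin 2, c ≠ c' → d ≠ c → d = c' := by decide
      rw [this c c' d hcc' hd]
    obtain ⟨g', hg', h1, h2⟩ := hrad c c' hcc' f hf m
      ⟨g, hg, (ValuationSubring.mem_nonunits_iff _).1 (hgT _ hW'),
        (ValuationSubring.mem_nonunits_iff _).1 hfg⟩
    refine ⟨g', ⟨hg', fun W'' hW'' => ?_⟩, (ValuationSubring.mem_nonunits_iff _).2 h2⟩
    rw [hall W'' hW'']
    exact (ValuationSubring.mem_nonunits_iff _).2 h1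
  · refine ⟨f, ⟨hf, fun W' hW' => absurd ⟨W', hW'⟩ hne⟩, ?_⟩
    rw [sub_self]
    exact zero_mem_nonunits _

/-- AD7: `rad₁`, `rad₂` in the language of `Nodal.Base`. -/
theorem LQ.base_rad₁ (H : LQ A₀ ϖ₀ q al be w γ Ow' V x') :
    ∀ T : Set (ValuationSubring F), T ⊆ ↑(vertSet V) → ∀ W ∈ vertSet V, W ∉ T → ∀ (f : F) (m : ℕ),
    IsIntegral (Algebra.adjoin A₀ {AdjoinSimple.gen K₀ (xx al be x')}) f →
    (∃ g ∈ ChV A₀ F (AdjoinSimple.gen K₀ (xx al be x')) T, f ^ m - g ∈ W.nonunits) →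
    ∃ g ∈ ChV A₀ F (AdjoinSimple.gen K₀ (xx al be x')) T, f - g ∈ W.nonunits := by
  refine LQ.base_rad₁_aux V
    (fun y => IsIntegral (Algebra.adjoin A₀ {AdjoinSimple.gen K₀ (xx al be x')}) y) ?_
  intro c c' hcc' f hf m ⟨g, hg, h1, h2⟩
  obtain ⟨g', hg', h1', h2'⟩ := H.rad₁ c c' hcc' f
    ((mem_chart_iff_isIntegral_gen A₀ _ _).2 hf) m
    ⟨g, (mem_chart_iff_isIntegral_gen A₀ _ _).2 hg, h1, h2⟩
  exact ⟨g', (mem_chart_iff_isIntegral_gen A₀ _ _).1 hg', h1', h2'⟩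

theorem LQ.base_rad₂ (H : LQ A₀ ϖ₀ q al be w γ Ow' V x') :
    ∀ T : Set (ValuationSubring F), T ⊆ ↑(vertSet V) → ∀ W ∈ vertSet V, W ∉ T → ∀ (f : F) (m : ℕ),
    IsIntegral (Algebra.adjoin A₀ {(AdjoinSimple.gen K₀ (xx al be x'))⁻¹}) f →
    (∃ g ∈ ChV A₀ F (AdjoinSimple.gen K₀ (xx al be x'))⁻¹ T, f ^ m - g ∈ W.nonunits) →
    ∃ g ∈ ChV A₀ F (AdjoinSimple.gen K₀ (xx al be x'))⁻¹ T, f - g ∈ W.nonunits := by
  refine LQ.base_rad₁_aux V
    (fun y => IsIntegral (Algebra.adjoin A₀ {(AdjoinSimple.gen K₀ (xx al be x'))⁻¹}) y) ?_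
  intro c c' hcc' f hf m ⟨g, hg, h1, h2⟩
  obtain ⟨g', hg', h1', h2'⟩ := H.rad₂ c c' hcc' f
    ((mem_chart_inv_iff_isIntegral_gen A₀ _ _).2 hf) m
    ⟨g, (mem_chart_inv_iff_isIntegral_gen A₀ _ _).2 hg, h1, h2⟩
  exact ⟨g', (mem_chart_inv_iff_isIntegral_gen A₀ _ _).1 hg', h1', h2'⟩

/-- **AD8: the hub gives a base of the nodal core.** -/
theorem LQ.base [CharZero K₀] [IsDiscreteValuationRing A₀]
    (H : LQ A₀ ϖ₀ q al be w γ Ow' V x') :
    Base A₀ F (AdjoinSimple.gen K₀ (xx al be x')) (⟨ϖ₀, H.vert'.unif₀.mem⟩ : A₀)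
      (gaussP V (xx al be x')) (vertSet V) := by
  have htr : Transcendental K₀ (xx al be x') :=
    (H.isMCoord 0).transcendental
  refine
    { coord := isCoord_gen A₀ htr
      irr := irreducible_of_isUnif H.vert'.unif₀
      og := isLocSub_of_isMCoord H.vert'.unif₀ htr (V 0) (H.isMCoord 0) (H.isMVert.const_mem 0)
        (H.isMVert.lt_one 0)
      vert_iff := LQ.vert_iff H
      unif := ?_
      nor₁ := ?_
      nor₂ := ?_
      rad₁ := LQ.base_rad₁ H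
      rad₂ := LQ.base_rad₂ H }
  · intro W hW y hy
    obtain ⟨c, rfl⟩ := mem_vertSet.mp hW
    rw [ValuationSubring.mem_nonunits_iff] at hy
    have h1 := CoordAux.div_mem_of_valuation_lt_one (H.unif_all c) hy
    rw [div_eq_inv_mul] at h1
    exact h1
  · intro W hW z hz p hp hpc hpz
    obtain ⟨c, rfl⟩ := mem_vertSet.mp hW
    rw [ValuationSubring.mem_nonunits_iff] at hpz
    obtain ⟨f, hf, hzf⟩ := H.nor_closed₁ c z hz p hp
      (fun j => (mem_chart_iff_isIntegral_gen A₀ _ _).mpr (hpc j)) hpz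
    exact ⟨f, (mem_chart_iff_isIntegral_gen A₀ _ _).mp hf,
      (ValuationSubring.mem_nonunits_iff _).mpr hzf⟩
  · intro W hW z hz p hp hpc hpz
    obtain ⟨c, rfl⟩ := mem_vertSet.mp hW
    rw [ValuationSubring.mem_nonunits_iff] at hpz
    obtain ⟨f, hf, hzf⟩ := H.nor_closed₂ c z hz p hp
      (fun j => (mem_chart_inv_iff_isIntegral_gen A₀ _ _).mpr (hpc j)) hpz
    exact ⟨f, (mem_chart_inv_iff_isIntegral_gen A₀ _ _).mp hf,
      (ValuationSubring.mem_nonunits_iff _).mpr hzf⟩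

end Hub

end Fermat.Agent.Nodal

end
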