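/-
NODAL, layer LQ (architect helper155): the main theorems of the nodal core for helper39's hub
`BAD.LevelQ.LQ`, entirely in the one-field language of `S18/Defs.lean`.  The consumers never see
`Nodal.Base`.

`CrossPow B V g₀` : modulo the ideal of the crossing points of the chart `B`, `g₀` is a power map.
`LQ.tor_tame`     : `n` invertible in `A₀`, `u ≡ 1` at `V 0` and `V 1`;
`LQ.tor_deep`     : `n = p`, `u ≡ 1 mod (ζ - 1) ^ p m` at `V 0` and `V 1`.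
-/
import Fermat.Agent.Nodal.LQ.Adapt
import Fermat.Agent.Nodal.Kum.Main
import Fermat.Agent.Nodal.Riem.Abs

set_option autoImplicit false

noncomputable section

namespace Fermat.Agent.Nodal

open IntermediateField Polynomial Fermat.Agent.S18 Fermat.Agent.BAD.LevelQ

section Cross

variable {F : Type*} [Field F]

/-- Modulo the ideal `I_{V 0} + I_{V 1}` of the chart `B`, the automorphism `g₀` is a power map. -/
def CrossPow (B : Subring F) (V : Fin 2 → ValuationSubring F) (g₀ : F ≃+* F) : Prop :=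
  ∀ b ∈ B, ∃ m : ℕ, 0 < m ∧ ∃ y₀ ∈ B, ∃ y₁ ∈ B,
    (V 0).valuation y₀ < 1 ∧ (V 1).valuation y₁ < 1 ∧ g₀ b = b ^ m + y₀ + y₁

/-- LT1: an automorphism which is trivial on the component `V 0`. -/
theorem crossPow_of_trivial (B : Subring F) (V : Fin 2 → ValuationSubring F) (g₀ : F ≃+* F)
    (hB : ∀ b ∈ B, g₀ b ∈ B) (h : ∀ b ∈ B, (V 0).valuation (g₀ b - b) < 1) : CrossPow B V g₀ := by
  intro b hb
  refine ⟨1, one_pos, g₀ b - b, B.sub_mem (hB b hb) hb, 0, B.zero_mem, h b hb, ?_, ?_⟩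
  · rw [map_zero]; exact zero_lt_one
  · ring

end Cross

variable {K₀ F' F : Type*} [Field K₀] [Field F'] [Field F] [Algebra K₀ F'] [Algebra K₀ F]
variable {A₀ : ValuationSubring K₀} {ϖ₀ : K₀} {q : ℕ} {al be : F' →ₐ[K₀] F} {w : F ≃ₐ[K₀] F}
  {γ : F' →+* F'} {Ow' : ValuationSubring F'} {V : Fin 2 → ValuationSubring F} {x' : F'}

/-- congruent elements have congruent powers. -/
theorem LQ.crossPow₁_of_frob_pow {E : Type*} [Field E] (W : ValuationSubring E) {a c : E}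
    (ha : a ∈ W) (hc : c ∈ W) (h : W.valuation (a - c) < 1) (k : ℕ) :
    W.valuation (a ^ k - c ^ k) < 1 := by
  induction k with
  | zero => simp
  | succ k ih =>
    have e : a ^ (k + 1) - c ^ (k + 1) = a * (a ^ k - c ^ k) + c ^ k * (a - c) := by ring
    rw [e]
    refine Valuation.map_add_lt _ ?_ ?_
    · rw [map_mul]
      exact lt_of_le_of_lt (mul_le_of_le_one_left' ((W.valuation_le_one_iff a).2 ha)) ih
    · rw [map_mul]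
      exact lt_of_le_of_lt
        (mul_le_of_le_one_left' ((W.valuation_le_one_iff _).2 (W.pow_mem hc k))) h

/-- the common argument for the two charts. -/
theorem LQ.crossPow₁_of_frob_aux (H : LQ A₀ ϖ₀ q al be w γ Ow' V x') (g₀ : F ≃+* F)
    (g' : F' →+* F') (hal : ∀ f, g₀ (al f) = al (g' f)) (hγ : ∀ f, γ (γ (g' f)) = f)
    (B : Subring F) (B' : Subring F') (hB'le : ∀ r ∈ B', r ∈ Ow')
    (hnor : ∀ y ∈ B, ∃ r ∈ B', (V 0).valuation (y - al r) < 1)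
    (hγB : ∀ r ∈ B', γ r ∈ B') (halB : ∀ r ∈ B', al r ∈ B) (hbeB : ∀ r ∈ B', be r ∈ B)
    (hBV : ∀ b ∈ B, b ∈ V 0) (hg' : ∀ r ∈ B', g' r ∈ B') (hB : ∀ b ∈ B, g₀ b ∈ B)
    (hV0 : ∀ y, (V 0).valuation y < 1 → (V 0).valuation (g₀ y) < 1) :
    CrossPow B V g₀ := by
  intro b hb
  obtain ⟨r, hr, hbr⟩ := hnor b hb
  have hr₂ : g' r ∈ B' := hg' r hr
  have hr₁ : γ (g' r) ∈ B' := hγB _ hr₂
  have hy₁B : al (g' r) - be (γ (g' r)) ^ q ∈ B :=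
    B.sub_mem (halB _ hr₂) (B.pow_mem (hbeB _ hr₁) q)
  refine ⟨q ^ 2, pow_pos H.prime.pos 2, g₀ b - b ^ (q ^ 2) - (al (g' r) - be (γ (g' r)) ^ q),
    B.sub_mem (B.sub_mem (hB b hb) (B.pow_mem hb _)) hy₁B, al (g' r) - be (γ (g' r)) ^ q, hy₁B,
    ?_, H.kron_one _ (hB'le _ hr₂), by ring⟩
  have e : g₀ b - b ^ (q ^ 2) - (al (g' r) - be (γ (g' r)) ^ q) =
      g₀ (b - al r) + (be (γ (g' r)) ^ q - (al r ^ q) ^ q) +
        (al r ^ (q ^ 2) - b ^ (q ^ 2)) := by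
    rw [map_sub, hal, ← pow_mul, ← sq]
    ring
  rw [e]
  refine Valuation.map_add_lt _ (Valuation.map_add_lt _ (hV0 _ hbr) ?_) ?_
  · have hk := H.kron _ (hB'le _ hr₁)
    rw [hγ] at hk
    exact LQ.crossPow₁_of_frob_pow (V 0) (hBV _ (hbeB _ hr₁))
      ((V 0).pow_mem (hBV _ (halB _ hr)) q) hk q
  · refine LQ.crossPow₁_of_frob_pow (V 0) (hBV _ (halB _ hr)) (hBV _ hb) ?_ _
    rw [Valuation.map_sub_swap]
    exact hbr

/-- LT2: the square of the Frobenius: `g₀ b ≡ b ^ (q ^ 2)` at the crossing points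
(`g'` = the action of `g₀` at level `M`, `γ ∘ γ ∘ g' = id`). -/
theorem LQ.crossPow₁_of_frob (H : LQ A₀ ϖ₀ q al be w γ Ow' V x') (g₀ : F ≃+* F) (g' : F' →+* F')
    (hal : ∀ f, g₀ (al f) = al (g' f)) (hγ : ∀ f, γ (γ (g' f)) = f)
    (hg' : ∀ r ∈ chart A₀.toSubring x', g' r ∈ chart A₀.toSubring x')
    (hB : ∀ b ∈ ch₁ A₀ al be x', g₀ b ∈ ch₁ A₀ al be x')
    (hV0 : ∀ y, (V 0).valuation y < 1 → (V 0).valuation (g₀ y) < 1) :
    CrossPow (ch₁ A₀ al be x') V g₀ :=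
  LQ.crossPow₁_of_frob_aux H g₀ g' hal hγ _ (chart A₀.toSubring x') H.chart₁'.le H.nor₁
    (fun _ hr => H.γ_mem_chart₁ hr) (fun _ hr => H.al_mem_ch₁ hr) (fun _ hr => H.be_mem_ch₁ hr)
    (fun b hb => ((H.mem_ch₁_iff b).1 hb).1 0) hg' hB hV0

theorem LQ.crossPow₂_of_frob (H : LQ A₀ ϖ₀ q al be w γ Ow' V x') (g₀ : F ≃+* F) (g' : F' →+* F')
    (hal : ∀ f, g₀ (al f) = al (g' f)) (hγ : ∀ f, γ (γ (g' f)) = f)
    (hg' : ∀ r ∈ chart A₀.toSubring x'⁻¹, g' r ∈ chart A₀.toSubring x'⁻¹)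
    (hB : ∀ b ∈ ch₂ A₀ al be x', g₀ b ∈ ch₂ A₀ al be x')
    (hV0 : ∀ y, (V 0).valuation y < 1 → (V 0).valuation (g₀ y) < 1) :
    CrossPow (ch₂ A₀ al be x') V g₀ :=
  LQ.crossPow₁_of_frob_aux H g₀ g' hal hγ _ (chart A₀.toSubring x'⁻¹) H.chart₂'.le H.nor₂
    (fun _ hr => H.γ_mem_chart₂ hr) (fun _ hr => H.al_mem_ch₂ hr) (fun _ hr => H.be_mem_ch₂ hr)
    (fun b hb => ((H.mem_ch₂_iff b).1 hb).1 0) hg' hB hV0

/-- LT3: `CrossPow` implies `FixesCrossings`. -/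
theorem fixesCrossings_of_crossPow {x : F} (t : K₀⟮x⟯) (g₀ : F ≃+* F)
    (h : CrossPow (chart A₀.toSubring (t : F)) V g₀) :
    FixesCrossings A₀ F t (vertSet V) g₀ := by
  intro 𝔪 _ W hW W' hW' hne hWm hW'm b hb b' hb'
  obtain ⟨c, rfl⟩ := mem_vertSet.mp hW
  obtain ⟨c', rfl⟩ := mem_vertSet.mp hW'
  have hcc : c ≠ c' := fun h => hne (by rw [h])
  -- both ideals are contained in `𝔪`
  have h01 : (∀ b : integralClosure (Algebra.adjoin A₀ {t}) F, (b : F) ∈ (V 0).nonunits → b ∈ 𝔪) ∧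
      ∀ b : integralClosure (Algebra.adjoin A₀ {t}) F, (b : F) ∈ (V 1).nonunits → b ∈ 𝔪 := by
    rcases (by decide : ∀ c c' : Fin 2, c ≠ c' → (c = 0 ∧ c' = 1) ∨ (c = 1 ∧ c' = 0)) c c' hcc with
      ⟨rfl, rfl⟩ | ⟨rfl, rfl⟩
    · exact ⟨hWm, hW'm⟩
    · exact ⟨hW'm, hWm⟩
  have hbch : (b : F) ∈ chart A₀.toSubring (t : F) :=
    (mem_chart_iff_isIntegral_adjoin A₀ t (b : F)).mpr b.2
  obtain ⟨m, hm, y₀, hy₀, y₁, hy₁, hv₀, hv₁, heq⟩ := h b hbch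
  have hY₀ : (⟨y₀, (mem_chart_iff_isIntegral_adjoin A₀ t y₀).mp hy₀⟩ :
      integralClosure (Algebra.adjoin A₀ {t}) F) ∈ 𝔪 :=
    h01.1 _ ((V 0).mem_nonunits_iff.mpr hv₀)
  have hY₁ : (⟨y₁, (mem_chart_iff_isIntegral_adjoin A₀ t y₁).mp hy₁⟩ :
      integralClosure (Algebra.adjoin A₀ {t}) F) ∈ 𝔪 :=
    h01.2 _ ((V 1).mem_nonunits_iff.mpr hv₁)
  have hb'eq : b' = b ^ m + ⟨y₀, (mem_chart_iff_isIntegral_adjoin A₀ t y₀).mp hy₀⟩ +
      ⟨y₁, (mem_chart_iff_isIntegral_adjoin A₀ t y₁).mp hy₁⟩ := by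
    apply Subtype.ext
    rw [hb', heq]
    rfl
  rw [hb'eq]
  exact 𝔪.add_mem (𝔪.add_mem (Ideal.pow_mem_of_mem 𝔪 hb m hm) hY₀) hY₁

/-- LT4: the residue field. -/
theorem finite_quotient_span_of_isUnif [IsDiscreteValuationRing A₀] (h₀ : IsUnif A₀ ϖ₀)
    (hfin : Finite (IsLocalRing.ResidueField A₀)) :
    Finite (A₀ ⧸ Ideal.span {(⟨ϖ₀, h₀.mem⟩ : A₀)}) := by
  rw [← (irreducible_of_isUnif h₀).maximalIdeal_eq]
  exact hfin

/-- LT5: if `K₀` is algebraically closed in `L` then `A₀` is integrally closed in `L`. -/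
theorem range_of_isIntegralElem {L : Type*} [Field L] (ι : F →+* L)
    (hL : ∀ z : L, (ι.comp (algebraMap K₀ F)).IsIntegralElem z →
      z ∈ (ι.comp (algebraMap K₀ F)).range) :
    ∀ z : L, (ι.comp (algebraMap A₀ F)).IsIntegralElem z →
      z ∈ (ι.comp (algebraMap A₀ F)).range := by
  intro z hz
  obtain ⟨P, hP, hPz⟩ := hz
  have hcomp : algebraMap A₀ F = (algebraMap K₀ F).comp (algebraMap A₀ K₀) :=
    IsScalarTower.algebraMap_eq A₀ K₀ F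
  have h1 : (ι.comp (algebraMap K₀ F)).IsIntegralElem z := by
    refine ⟨P.map (algebraMap A₀ K₀), hP.map _, ?_⟩
    rw [Polynomial.eval₂_map, RingHom.comp_assoc, ← hcomp]
    exact hPz
  obtain ⟨a, rfl⟩ := hL z h1
  have h2 : IsIntegral A₀ a := by
    refine ⟨P, hP, ?_⟩
    apply (ι.comp (algebraMap K₀ F)).injective
    rw [map_zero, Polynomial.hom_eval₂, RingHom.comp_assoc, ← hcomp]
    exact hPz
  obtain ⟨a', rfl⟩ := (IsIntegrallyClosed.isIntegral_iff (R := A₀) (K := K₀)).mp h2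
  exact ⟨a', by rw [hcomp]; rfl⟩

theorem LQ.tor_tame_zeta_mem {n : ℕ} (hn : n ≠ 0) {ζ : K₀} (hζ : ζ ^ n = 1) : ζ ∈ A₀ := by
  rcases A₀.mem_or_inv_mem ζ with h | h
  · exact h
  · obtain ⟨m, rfl⟩ := Nat.exists_eq_succ_of_ne_zero hn
    rw [Nat.succ_eq_add_one, pow_succ] at hζ
    have h1 : ζ = ζ⁻¹ ^ m := by rw [inv_pow]; exact eq_inv_of_mul_eq_one_right hζ
    rw [h1]
    exact pow_mem h m

theorem LQ.tor_tame_common (g₀ : F ≃+* F) (τ : K₀ ≃+* K₀)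
    (hτ : ∀ a, g₀ (algebraMap K₀ F a) = algebraMap K₀ F (τ a))
    (hτA : ∀ a, τ a ∈ A₀ ↔ a ∈ A₀)
    (hx : g₀ (xx al be x') = xx al be x')
    (hV : ∀ c y, g₀ y ∈ V c ↔ y ∈ V c)
    (hcr₁ : CrossPow (ch₁ A₀ al be x') V g₀) (hcr₂ : CrossPow (ch₂ A₀ al be x') V g₀) :
    (∀ a : A₀, ∃ a' : A₀, g₀ (algebraMap A₀ F a) = algebraMap A₀ F a') ∧
    (∀ a : A₀, ∃ a' : A₀, g₀ (algebraMap A₀ F a') = algebraMap A₀ F a) ∧
    g₀ (algebraMap K₀⟮xx al be x'⟯ F (AdjoinSimple.gen K₀ (xx al be x'))) =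
      algebraMap K₀⟮xx al be x'⟯ F (AdjoinSimple.gen K₀ (xx al be x')) ∧
    (∀ W ∈ vertSet V, W.comap (g₀ : F →+* F) = W) ∧
    FixesCrossings A₀ F (AdjoinSimple.gen K₀ (xx al be x')) (vertSet V) g₀ ∧
    FixesCrossings A₀ F (AdjoinSimple.gen K₀ (xx al be x'))⁻¹ (vertSet V) g₀ := by
  refine ⟨fun a => ⟨⟨τ a, (hτA a).2 a.2⟩, hτ a⟩, fun a => ⟨⟨τ.symm a, (hτA _).1 (by simp)⟩, ?_⟩,
    ?_, ?_, ?_, ?_⟩
  · have h := hτ (τ.symm a)
    rw [RingEquiv.apply_symm_apply] at h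
    exact h
  · rw [AdjoinSimple.algebraMap_gen]; exact hx
  · intro W hW
    obtain ⟨c, rfl⟩ := mem_vertSet.1 hW
    ext y
    rw [ValuationSubring.mem_comap]
    exact hV c y
  · exact fixesCrossings_of_crossPow (AdjoinSimple.gen K₀ (xx al be x')) g₀ hcr₁
  · exact fixesCrossings_of_crossPow (AdjoinSimple.gen K₀ (xx al be x'))⁻¹ g₀ hcr₂

/-- **LT6, tame form.** -/
theorem LQ.tor_tame [CharZero K₀] [IsDiscreteValuationRing A₀]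
    (H : LQ A₀ ϖ₀ q al be w γ Ow' V x') (hfin : Finite (IsLocalRing.ResidueField A₀))
    {L : Type*} [Field L] (ι : F →+* L)
    (hL : ∀ z : L, (ι.comp (algebraMap K₀ F)).IsIntegralElem z →
      z ∈ (ι.comp (algebraMap K₀ F)).range)
    (n : ℕ) (hn : A₀.valuation (n : K₀) = 1) (ζ : K₀) (hζ : IsPrimitiveRoot ζ n)
    (g₀ : F ≃+* F) (τ : K₀ ≃+* K₀) (hτ : ∀ a, g₀ (algebraMap K₀ F a) = algebraMap K₀ F (τ a))
    (hτA : ∀ a, τ a ∈ A₀ ↔ a ∈ A₀)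
    (hx : g₀ (xx al be x') = xx al be x')
    (hV : ∀ c y, g₀ y ∈ V c ↔ y ∈ V c)
    (hcr₁ : CrossPow (ch₁ A₀ al be x') V g₀) (hcr₂ : CrossPow (ch₂ A₀ al be x') V g₀)
    (ε : ℕ) (hε : τ ζ = ζ ^ ε)
    (U : Finset F) (hUg : ∀ u ∈ U, g₀ u ∈ U) (hUL : ∀ u ∈ U, ∃ z : L, z ^ n = ι u)
    (hU1 : ∀ u ∈ U, ∀ c, (V c).valuation (u - 1) < 1)
    (hUR : ∀ e : F → ℕ, RiemK K₀ F (xx al be x') n (∏ u ∈ U, u ^ e u)) :
    ∀ u ∈ U, ∃ f : F, g₀ u = u ^ ε * f ^ n := by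
  haveI : FiniteDimensional K₀⟮xx al be x'⟯ F := H.isMVert.finite
  haveI : CharZero K₀⟮xx al be x'⟯ :=
    charZero_of_injective_algebraMap (algebraMap K₀ K₀⟮xx al be x'⟯).injective
  haveI := finite_quotient_span_of_isUnif H.vert'.unif₀ hfin
  have hn0 : n ≠ 0 := by
    rintro rfl
    rw [Nat.cast_zero, map_zero] at hn
    exact zero_ne_one hn
  have hζmem : ζ ∈ A₀ := LQ.tor_tame_zeta_mem hn0 hζ.pow_eq_one
  have hζA : IsPrimitiveRoot (⟨ζ, hζmem⟩ : A₀) n :=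
    IsPrimitiveRoot.of_map_of_injective (f := A₀.subtype) (hf := Subtype.val_injective) hζ
  have hnU : IsUnit ((n : ℕ) : A₀) := by
    have h1 : A₀.valuation (((n : ℕ) : A₀) : K₀) = 1 := by push_cast; exact hn
    exact (ValuationSubring.valuation_eq_one_iff A₀ _).2 h1
  obtain ⟨hA, hA', hx', hV', hc₁, hc₂⟩ :=
    LQ.tor_tame_common (A₀ := A₀) g₀ τ hτ hτA hx hV hcr₁ hcr₂
  refine Nodal.tor_tame (A := A₀) (P := K₀⟮xx al be x'⟯) (LQ.base H)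
    ⟨V 0, mem_vertSet.2 ⟨0, rfl⟩⟩ ι (range_of_isIntegralElem ι hL) n hnU ⟨ζ, hζmem⟩ hζA g₀ hA hA'
    hx' hV' hc₁ hc₂ ε ?_ U hUg hUL ?_ ?_
  · show g₀ (algebraMap K₀ F ζ) = algebraMap K₀ F ζ ^ ε
    rw [hτ, hε, map_pow]
  · intro u hu W hW
    obtain ⟨c, rfl⟩ := mem_vertSet.1 hW
    rw [ValuationSubring.mem_nonunits_iff]
    exact hU1 u hu c
  · intro e
    refine riem_of_riemK (K := K₀) (LQ.base H).coord n (Nat.pos_of_ne_zero hn0) _ ?_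
    rw [AdjoinSimple.algebraMap_gen]
    exact hUR e

/-- **LT7, wild form** (`n = p`). -/
theorem LQ.tor_deep [CharZero K₀] [IsDiscreteValuationRing A₀]
    (H : LQ A₀ ϖ₀ q al be w γ Ow' V x') (hfin : Finite (IsLocalRing.ResidueField A₀))
    {L : Type*} [Field L] (ι : F →+* L)
    (hL : ∀ z : L, (ι.comp (algebraMap K₀ F)).IsIntegralElem z →
      z ∈ (ι.comp (algebraMap K₀ F)).range)
    (p : ℕ) (hp : p.Prime) (ζ : K₀) (hζ : IsPrimitiveRoot ζ p)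
    (g₀ : F ≃+* F) (τ : K₀ ≃+* K₀) (hτ : ∀ a, g₀ (algebraMap K₀ F a) = algebraMap K₀ F (τ a))
    (hτA : ∀ a, τ a ∈ A₀ ↔ a ∈ A₀)
    (hx : g₀ (xx al be x') = xx al be x')
    (hV : ∀ c y, g₀ y ∈ V c ↔ y ∈ V c)
    (hcr₁ : CrossPow (ch₁ A₀ al be x') V g₀) (hcr₂ : CrossPow (ch₂ A₀ al be x') V g₀)
    (ε : ℕ) (hε : τ ζ = ζ ^ ε)
    (U : Finset F) (hUg : ∀ u ∈ U, g₀ u ∈ U) (hUL : ∀ u ∈ U, ∃ z : L, z ^ p = ι u)
    (hU1 : ∀ u ∈ U, ∀ c, ∃ z : F, (V c).valuation z < 1 ∧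
      u - 1 = algebraMap K₀ F (ζ - 1) ^ p * z)
    (hUR : ∀ e : F → ℕ, RiemK K₀ F (xx al be x') p (∏ u ∈ U, u ^ e u)) :
    ∀ u ∈ U, ∃ f : F, g₀ u = u ^ ε * f ^ p := by
  haveI : FiniteDimensional K₀⟮xx al be x'⟯ F := H.isMVert.finite
  haveI : CharZero K₀⟮xx al be x'⟯ :=
    charZero_of_injective_algebraMap (algebraMap K₀ K₀⟮xx al be x'⟯).injective
  haveI := finite_quotient_span_of_isUnif H.vert'.unif₀ hfin
  have hζmem : ζ ∈ A₀ := LQ.tor_tame_zeta_mem hp.ne_zero hζ.pow_eq_one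
  have hζA : IsPrimitiveRoot (⟨ζ, hζmem⟩ : A₀) p :=
    IsPrimitiveRoot.of_map_of_injective (f := A₀.subtype) (hf := Subtype.val_injective) hζ
  obtain ⟨hA, hA', hx', hV', hc₁, hc₂⟩ :=
    LQ.tor_tame_common (A₀ := A₀) g₀ τ hτ hτA hx hV hcr₁ hcr₂
  refine Nodal.tor_deep (A := A₀) (P := K₀⟮xx al be x'⟯) (LQ.base H)
    ⟨V 0, mem_vertSet.2 ⟨0, rfl⟩⟩ ι (range_of_isIntegralElem ι hL) p hp ⟨ζ, hζmem⟩ hζA g₀ hA hA'
    hx' hV' hc₁ hc₂ ε ?_ U hUg hUL ?_ ?_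
  · show g₀ (algebraMap K₀ F ζ) = algebraMap K₀ F ζ ^ ε
    rw [hτ, hε, map_pow]
  · intro u hu W hW
    obtain ⟨c, rfl⟩ := mem_vertSet.1 hW
    obtain ⟨z, hz, hu1⟩ := hU1 u hu c
    exact ⟨z, (ValuationSubring.mem_nonunits_iff _).2 hz, hu1⟩
  · intro e
    refine riem_of_riemK (K := K₀) (LQ.base H).coord p hp.pos _ ?_
    rw [AdjoinSimple.algebraMap_gen]
    exact hUR e

end Fermat.Agent.Nodal

end
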